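import Fermat.Agent.LocEll.Main

/-!
# [LOC-uni] and [LOC-new]
-/

set_option autoImplicit false
set_option linter.unusedSectionVars false

noncomputable section

namespace Fermat.Agent.LocEll

open IsLocalRing Fermat.Agent.DefRing Matrix Fermat.Agent.HGModule Fermat.Agent.QuadRep
  Fermat.Agent.NewPoint Fermat.Agent.Tate Fermat.Agent.HeckeHom
open ModularCurve ModularCurve.Period CongruenceSubgroup
open scoped TensorProduct

theorem exists_ker_of_finrank {E : Type*} [Field E] {X Y : Type*} [AddCommMonoid X] [Module E X]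
    [AddCommMonoid Y] [Module E Y] {k k' : ℕ} (e : X ≃ₗ[E] (Fin k → E))
    (e' : Y ≃ₗ[E] (Fin k' → E)) (V : Submodule E X) (V' : Submodule E Y) (f g : X →ₗ[E] Y)
    (hf : ∀ x ∈ V, f x ∈ V') (hg : ∀ x ∈ V, g x ∈ V')
    (hdim : 2 * Module.finrank E V' < Module.finrank E V) :
    ∃ x ∈ V, x ≠ 0 ∧ f x = 0 ∧ g x = 0 := by
  let U : Submodule E (Fin k → E) := V.map e.toLinearMap
  let U' : Submodule E (Fin k' → E) := V'.map e'.toLinearMap
  have h1 : Module.finrank E V = Module.finrank E U := (e.submoduleMap V).finrank_eq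
  have h2 : Module.finrank E V' = Module.finrank E U' := (e'.submoduleMap V').finrank_eq
  let f' : (Fin k → E) →ₗ[E] (Fin k' → E) := e'.toLinearMap ∘ₗ f ∘ₗ e.symm.toLinearMap
  let g' : (Fin k → E) →ₗ[E] (Fin k' → E) := e'.toLinearMap ∘ₗ g ∘ₗ e.symm.toLinearMap
  have key : ∀ (φ : X →ₗ[E] Y), (∀ x ∈ V, φ x ∈ V') →
      ∀ u ∈ U, (e'.toLinearMap ∘ₗ φ ∘ₗ e.symm.toLinearMap) u ∈ U' := by
    rintro φ hφ _ ⟨x, hx, rfl⟩
    refine ⟨φ x, hφ x hx, ?_⟩
    simp
  let G : U →ₗ[E] U' × U' := LinearMap.prod (f'.restrict (key f hf)) (g'.restrict (key g hg))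
  have hG : ¬ Function.Injective G := by
    intro h
    have h3 := LinearMap.finrank_le_finrank_of_injective h
    rw [Module.finrank_prod] at h3
    omega
  rw [injective_iff_map_eq_zero] at hG
  push Not at hG
  obtain ⟨⟨_, x, hx, rfl⟩, hφ, hφ0⟩ := hG
  refine ⟨x, hx, ?_, ?_, ?_⟩
  · rintro rfl
    exact hφ0 (Subtype.ext (map_zero e.toLinearMap))
  · have h3 : e' (f (e.symm (e x))) = 0 := congrArg (fun z : U' × U' => z.1.1) hφ
    rwa [LinearEquiv.symm_apply_apply, LinearEquiv.map_eq_zero_iff] at h3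
  · have h3 : e' (g (e.symm (e x))) = 0 := congrArg (fun z : U' × U' => z.2.1) hφ
    rwa [LinearEquiv.symm_apply_apply, LinearEquiv.map_eq_zero_iff] at h3

section Maps

variable {p : ℕ} [Fact p.Prime] {M N : ℕ} [NeZero M] [NeZero N] {S : Finset ℕ}
  (I : TateInput p M (↑S : Set ℕ)) (I' : TateInput p N (↑S : Set ℕ))
  {E : Type*} [Field E] [CharZero E] (f : ℤ_[p] →+* E)

/-- the linear map between parabolic homomorphisms with a given matrix -/
def mapE (Z : Matrix (Fin (rk I'.toModule)) (Fin (rk I.toModule)) ℤ_[p]) :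
    parabolicHoms E (Gamma0 M) E →ₗ[E] parabolicHoms E (Gamma0 N) E :=
  (coord I' E).symm.toLinearMap ∘ₗ (Z.map f).mulVecLin ∘ₗ (coord I E).toLinearMap

theorem coord_mapE (Z : Matrix (Fin (rk I'.toModule)) (Fin (rk I.toModule)) ℤ_[p])
    (φ : parabolicHoms E (Gamma0 M) E) :
    coord I' E (mapE I I' f Z φ) = Z.map f *ᵥ coord I E φ := by
  change coord I' E ((coord I' E).symm (Z.map f *ᵥ coord I E φ)) = _
  rw [LinearEquiv.apply_symm_apply]

theorem mapE_mem {m : ℕ} {a : ℕ → E} (hmS : ∀ s : ℕ, s.Prime → (s ∣ m ↔ s ∈ S))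
    (Z : Matrix (Fin (rk I'.toModule)) (Fin (rk I.toModule)) ℤ_[p])
    (hZ : ∀ (l : ℕ) (hl : l.Prime) (hM : ¬ l ∣ M) (hN : ¬ l ∣ N) (hS : l ∉ (↑S : Set ℕ)),
      Z * (Q I.toModule (CuspForm.heckeAlgebra.T hl hM hS)).map (algebraMap ℤ ℤ_[p]) =
        (Q I'.toModule (CuspForm.heckeAlgebra.T hl hN hS)).map (algebraMap ℤ ℤ_[p]) * Z)
    {φ : parabolicHoms E (Gamma0 M) E} (hφ : φ ∈ VE E M m a) : mapE I I' f Z φ ∈ VE E N m a := by
  intro s hs hsN hsm
  have hsS : s ∉ (↑S : Set ℕ) := fun h => hsm ((hmS s hs).mpr (Finset.mem_coe.mp h))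
  have hsM : ¬ s ∣ M := fun h => hsS (I.hS s hs h)
  apply (coord I' E).injective
  rw [← theta_T I'.hES I'.hS E hs hsN hsS, coord_theta, coord_mapE, map_smul, coord_mapE]
  have h1 := coord_mem_VE I (fun s hs h => (hmS s hs).mp h) hφ s hs hsM hsS
  have hQ : ∀ {k : ℕ} (Y : Matrix (Fin k) (Fin k) ℤ), Y.map (Int.castRingHom E) =
      (Y.map (algebraMap ℤ ℤ_[p])).map f := by
    intro k Y
    ext i j
    simp
  rw [← Matrix.mulVec_smul, ← h1, hQ, hQ, Matrix.mulVec_mulVec, Matrix.mulVec_mulVec,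
    ← Matrix.map_mul, ← Matrix.map_mul, hZ s hs hsM hsN hsS]

end Maps

section Main

variable {p N q m : ℕ} [hp : Fact p.Prime] [NeZero N]
  {O : Type} [CommRing O] [IsDomain O] [IsDiscreteValuationRing O]
  [IsAdicComplete (maximalIdeal O) O] [CharZero O] (hpO : (p : O) ∈ maximalIdeal O)
  {E : Type*} [Field E] [CharZero E] (ι : O →+* E) (hι : Function.Injective ι)

theorem padicHom_injective : Function.Injective (padicHom p O hpO) := by
  rw [injective_iff_map_eq_zero]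
  intro x hx
  by_contra hx0
  rw [PadicInt.unitCoeff_spec hx0, map_mul, map_pow, map_natCast] at hx
  rcases mul_eq_zero.mp hx with h1 | h1
  · exact ((PadicInt.unitCoeff hx0).isUnit.map (padicHom p O hpO)).ne_zero h1
  · have h2 : (p : O) = 0 := by
      by_contra h3
      exact pow_ne_zero _ h3 h1
    exact (Nat.cast_ne_zero.mpr hp.out.ne_zero) h2

include hpO hι in
/-- **[LOC-uni]**: unipotence of inertia at a prime exactly dividing the level. -/
theorem loc_uni (hq : q.Prime) (hqp : q ≠ p) (hqN : q ∣ N) (hq2 : ¬ q ^ 2 ∣ N) (hm : m ≠ 0)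
    (hNm : N * p ∣ m) (a : ℕ → E) {φ : parabolicHoms E (Gamma0 N) E} (hφ0 : φ ≠ 0)
    (hφ : φ ∈ VE E N m a) (r : GQ →* M2 O) (hr : MatCont O r)
    (ha : ∀ s : ℕ, s.Prime → ¬ s ∣ m → ∀ A : ValuationSubring (AlgebraicClosure ℚ),
      A.LiesOverPrime s → ∀ τ : GQ, A.IsFrobeniusAt τ s → ι (r τ).trace = a s)
    {A : ValuationSubring (AlgebraicClosure ℚ)} (hA : A.LiesOverPrime q) {σ : GQ}
    (hσ : σ ∈ A.inertiaSubgroupIn ℚ) :
    (r σ - 1).trace = 0 ∧ (r σ - 1).det = 0 ∧ (r σ - 1) * (r σ - 1) = 0 := by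
  classical
  have hS : ∀ s : ℕ, s.Prime → (s ∣ m ↔ s ∈ m.primeFactors) := fun s hs =>
    ⟨fun h => Nat.mem_primeFactors.mpr ⟨hs, h, hm⟩, fun h => (Nat.mem_primeFactors.mp h).2.1⟩
  have hNS : ∀ s : ℕ, s.Prime → s ∣ N → s ∈ (↑m.primeFactors : Set ℕ) := fun s hs h =>
    Finset.mem_coe.mpr ((hS s hs).mp ((h.mul_right p).trans hNm))
  let I := jI N p (↑m.primeFactors : Set ℕ) hNS
  obtain ⟨y, hy0, hy, -⟩ := exists_isEig I.toModule ι hι r a
    (fun l hl hlS => ha l hl fun h => hlS ((hS l hl).mp h)) (coord I E φ)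
    (fun h => hφ0 ((coord I E).map_eq_zero_iff.mp h))
    (fun l hl hlN hlS => coord_mem_VE I (fun s hs h => (hS s hs).mp h) hφ l hl hlN hlS)
    (0 : Matrix (Fin 0) _ O) (by ext i; exact i.elim0)
  refine unip_of_eig hpO hr hy0 hy (I := A.inertiaSubgroupIn ℚ) (fun τ hτ => ?_) (fun τ hτ => ?_)
    hσ
  · have h1 := rho_unipotent_jI (M := N) hNS hq hqp hqN hq2 A hA τ hτ
    have h2 := congrArg (LinearMap.toMatrixAlgEquiv (basp I.toModule)) h1
    rw [map_mul, map_sub, map_one, map_zero] at h2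
    exact h2
  · exact cyc_inertia hpO hq hqp hA hτ

include hpO hι in
/-- **[LOC-new]**, version for a class killed by both degeneracy maps. -/
theorem loc_new_ker [NeZero (N * q)] (hq : q.Prime) (hqp : q ≠ p) (hqN : ¬ q ∣ N) (hm : m ≠ 0)
    (hMS : ∀ r : ℕ, r.Prime → r ∣ N * q → r ∈ (↑m.primeFactors : Set ℕ))
    (hNS : ∀ r : ℕ, r.Prime → r ∣ N → r ∈ (↑m.primeFactors : Set ℕ)) (a : ℕ → E)
    {φ : parabolicHoms E (Gamma0 (N * q)) E} (hφ0 : φ ≠ 0)
    (hφ : φ ∈ VE E (N * q) m a)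
    (h1 : (matA (newAtJ (p := p) hMS hNS hq hqp hqN)).map (ι.comp (padicHom p O hpO)) *ᵥ
      coord (jI (N * q) p _ hMS) E φ = 0)
    (h2 : (matB (newAtJ (p := p) hMS hNS hq hqp hqN)).map (ι.comp (padicHom p O hpO)) *ᵥ
      coord (jI (N * q) p _ hMS) E φ = 0)
    (r : GQ →* M2 O) (hr : MatCont O r)
    (ha : ∀ s : ℕ, s.Prime → ¬ s ∣ m → ∀ A : ValuationSubring (AlgebraicClosure ℚ),
      A.LiesOverPrime s → ∀ τ : GQ, A.IsFrobeniusAt τ s → ι (r τ).trace = a s)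
    {A : ValuationSubring (AlgebraicClosure ℚ)} (hA : A.LiesOverPrime q) {σ : GQ}
    (hσ : A.IsFrobeniusAt σ q) : (r σ).trace ^ 2 = ((q : O) + 1) ^ 2 := by
  classical
  have hS : ∀ s : ℕ, s.Prime → (s ∣ m ↔ s ∈ m.primeFactors) := fun s hs =>
    ⟨fun h => Nat.mem_primeFactors.mpr ⟨hs, h, hm⟩, fun h => (Nat.mem_primeFactors.mp h).2.1⟩
  let I := jI (N * q) p (↑m.primeFactors : Set ℕ) hMS
  let F : ℤ_[p] →+* E := ι.comp (padicHom p O hpO)
  have hF : Function.Injective F := hι.comp (padicHom_injective hpO)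
  have hrel := newAt_rel_map (newAtJ (p := p) hMS hNS hq hqp hqN) hA hσ F hF
    (coord I E φ) h1 h2
  obtain ⟨y, hy0, hy, hy2⟩ := exists_isEig I.toModule ι hι r a
    (fun l hl hlS => ha l hl fun h => hlS ((hS l hl).mp h)) (coord I E φ)
    (fun h => hφ0 ((coord I E).map_eq_zero_iff.mp h))
    (fun l hl hlN hlS => coord_mem_VE I (fun s hs h => (hS s hs).mp h) hφ l hl hlN hlS)
    (((P I.toModule σ * P I.toModule σ - ((q : ℤ_[p]) ^ 2) • 1) *
      (P I.toModule σ * P I.toModule σ - 1)).map (padicHom p O hpO)) (by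
        rw [Matrix.map_map]
        exact hrel)
  refine trace_sq_of_newPoly hpO hr hy0 hy (cyc_frobenius hpO hq hqp hA hσ) ?_
  have h3 : ((P I.toModule σ * P I.toModule σ - ((q : ℤ_[p]) ^ 2) • 1) *
      (P I.toModule σ * P I.toModule σ - 1)).map (padicHom p O hpO) =
      (PO I.toModule hpO σ * PO I.toModule hpO σ - ((q : O) ^ 2) • 1) *
        (PO I.toModule hpO σ * PO I.toModule hpO σ - 1) := by
    have e1 : ∀ Y : Matrix (Fin (rk I.toModule)) (Fin (rk I.toModule)) ℤ_[p],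
        Y.map (padicHom p O hpO) = (padicHom p O hpO).mapMatrix Y := fun _ => rfl
    have e2 : (padicHom p O hpO).mapMatrix (P I.toModule σ) = PO I.toModule hpO σ := rfl
    have e3 : (padicHom p O hpO).mapMatrix (((q : ℤ_[p]) ^ 2) •
        (1 : Matrix (Fin (rk I.toModule)) (Fin (rk I.toModule)) ℤ_[p])) =
        ((q : O) ^ 2) • 1 := by
      ext i j
      rw [RingHom.mapMatrix_apply, Matrix.map_apply, Matrix.smul_apply, Matrix.smul_apply,
        smul_eq_mul, smul_eq_mul, map_mul, map_pow, map_natCast, Matrix.one_apply,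
        Matrix.one_apply]
      split_ifs <;> simp
    rw [e1, map_mul, map_sub, map_sub, map_mul, map_one, e2, e3]
  rw [← h3]
  exact hy2

include hpO hι in
/-- **[LOC-new]** -/
theorem loc_new (hq : q.Prime) (hqp : q ≠ p) (hqN : ¬ q ∣ N) (hm : m ≠ 0)
    (hNm : N * q * p ∣ m) (a : ℕ → E)
    (hdim : 2 * Module.finrank E (VE E N m a) < Module.finrank E (VE E (N * q) m a))
    (r : GQ →* M2 O) (hr : MatCont O r)
    (ha : ∀ s : ℕ, s.Prime → ¬ s ∣ m → ∀ A : ValuationSubring (AlgebraicClosure ℚ),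
      A.LiesOverPrime s → ∀ τ : GQ, A.IsFrobeniusAt τ s → ι (r τ).trace = a s)
    {A : ValuationSubring (AlgebraicClosure ℚ)} (hA : A.LiesOverPrime q) {σ : GQ}
    (hσ : A.IsFrobeniusAt σ q) : (r σ).trace ^ 2 = ((q : O) + 1) ^ 2 := by
  classical
  have : NeZero (N * q) := ⟨mul_ne_zero (NeZero.ne N) hq.ne_zero⟩
  have hS : ∀ s : ℕ, s.Prime → (s ∣ m ↔ s ∈ m.primeFactors) := fun s hs =>
    ⟨fun h => Nat.mem_primeFactors.mpr ⟨hs, h, hm⟩, fun h => (Nat.mem_primeFactors.mp h).2.1⟩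
  have hMS : ∀ s : ℕ, s.Prime → s ∣ N * q → s ∈ (↑m.primeFactors : Set ℕ) := fun s hs h =>
    Finset.mem_coe.mpr ((hS s hs).mp ((h.mul_right p).trans hNm))
  have hNS : ∀ s : ℕ, s.Prime → s ∣ N → s ∈ (↑m.primeFactors : Set ℕ) := fun s hs h =>
    hMS s hs (h.mul_right q)
  let I := jI (N * q) p (↑m.primeFactors : Set ℕ) hMS
  let I' := jI N p (↑m.primeFactors : Set ℕ) hNS
  let F : ℤ_[p] →+* E := ι.comp (padicHom p O hpO)
  let W := newAtJ (p := p) hMS hNS hq hqp hqN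
  have hA' : ∀ φ ∈ VE E (N * q) m a, mapE I I' F (matA W) φ ∈ VE E N m a := fun φ hφ =>
    mapE_mem I I' F hS (matA W) (fun l hl hM hN hlS =>
      toMatrix_comp_eq W W.a _ _ (W.a_hecke l hl hM hN hlS)) hφ
  have hB' : ∀ φ ∈ VE E (N * q) m a, mapE I I' F (matB W) φ ∈ VE E N m a := fun φ hφ =>
    mapE_mem I I' F hS (matB W) (fun l hl hM hN hlS =>
      toMatrix_comp_eq W W.b _ _ (W.b_hecke l hl hM hN hlS)) hφ
  obtain ⟨φ, hφ, hφ0, e1, e2⟩ := exists_ker_of_finrank (coord I E) (coord I' E)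
    (VE E (N * q) m a) (VE E N m a) (mapE I I' F (matA W)) (mapE I I' F (matB W)) hA' hB' hdim
  have e3 : (matA W).map F *ᵥ coord I E φ = 0 :=
    (coord_mapE I I' F (matA W) φ).symm.trans (by rw [e1, map_zero]; rfl)
  have e4 : (matB W).map F *ᵥ coord I E φ = 0 :=
    (coord_mapE I I' F (matB W) φ).symm.trans (by rw [e2, map_zero]; rfl)
  exact loc_new_ker hpO ι hι hq hqp hqN hm hMS hNS a hφ0 hφ e3 e4 r hr ha hA hσ

end Main

end Fermat.Agent.LocEll
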