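import Fermat.Agent.LocEll.Eigen

/-!
# Coordinates on parabolic homomorphisms; degeneracy maps
-/

set_option autoImplicit false
set_option linter.unusedSectionVars false

noncomputable section

namespace Fermat.Agent.LocEll

open IsLocalRing Fermat.Agent.DefRing Matrix Fermat.Agent.HGModule Fermat.Agent.QuadRep
  Fermat.Agent.NewPoint Fermat.Agent.Tate Fermat.Agent.HeckeHom
open ModularCurve.Period CongruenceSubgroup
open scoped TensorProduct

section Coord

variable {p : ℕ} [Fact p.Prime] {N : ℕ} [NeZero N] {S : Set ℕ} (I : TateInput p N S)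
  (E : Type*) [Field E] [CharZero E]

/-- the general comparison of Hecke actions -/
theorem tensorEquiv_theta (t : CuspForm.heckeAlgebra N 2 S)
    (x : E ⊗[ℤ] parabolicHoms ℤ (Gamma0 N) ℤ) :
    tensorEquiv E (Gamma0 N) ((theta I.hES I.hS ℤ t).baseChange E x) =
      theta I.hES I.hS E t (tensorEquiv E (Gamma0 N) x) := by
  induction x using TensorProduct.induction_on with
  | zero => rw [map_zero, map_zero, map_zero]
  | tmul a φ =>
    rw [LinearMap.baseChange_tmul, tensorEquiv_tmul, tensorEquiv_tmul, map_smul]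
    congr 1
    apply Subtype.ext
    symm
    exact theta_natural I.hES I.hS (Int.castAddHom E) t φ (castPar E (Gamma0 N) φ) rfl
  | add x y hx hy => rw [map_add, map_add, map_add, map_add, hx, hy]

/-- the basis of integral parabolic homomorphisms -/
def basJ : Module.Basis (Fin (rk I.toModule)) ℤ (parabolicHoms ℤ (Gamma0 N) ℤ) := bas I.toModule

/-- the basis of the base change -/
def basE : Module.Basis (Fin (rk I.toModule)) E (E ⊗[ℤ] parabolicHoms ℤ (Gamma0 N) ℤ) :=
  Algebra.TensorProduct.basis E (basJ I)

/-- coordinates on parabolic homomorphisms -/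
def coord : parabolicHoms E (Gamma0 N) E ≃ₗ[E] (Fin (rk I.toModule) → E) :=
  (tensorEquiv E (Gamma0 N)).symm ≪≫ₗ (basE I E).equivFun

theorem coord_tensorEquiv (y : E ⊗[ℤ] parabolicHoms ℤ (Gamma0 N) ℤ) :
    coord I E (tensorEquiv E (Gamma0 N) y) = (basE I E).repr y := by
  rw [coord, LinearEquiv.trans_apply, LinearEquiv.symm_apply_apply, Module.Basis.equivFun_apply]

theorem coord_theta (t : CuspForm.heckeAlgebra N 2 S) (φ : parabolicHoms E (Gamma0 N) E) :
    coord I E (theta I.hES I.hS E t φ) =
      ((Q I.toModule t).map (Int.castRingHom E)) *ᵥ coord I E φ := by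
  obtain ⟨x, rfl⟩ := (tensorEquiv E (Gamma0 N)).surjective φ
  rw [← tensorEquiv_theta I E, coord_tensorEquiv, coord_tensorEquiv]
  have h2 := LinearMap.toMatrix_mulVec_repr (basE I E) (basE I E)
    ((theta I.hES I.hS ℤ t).baseChange E) x
  have h3 : LinearMap.toMatrix (basE I E) (basE I E) ((theta I.hES I.hS ℤ t).baseChange E) =
      (Q I.toModule t).map (Int.castRingHom E) :=
    LinearMap.toMatrix_baseChange E (theta I.hES I.hS ℤ t) (basJ I) (basJ I)
  rw [h3] at h2
  exact h2.symm

end Coord

end Fermat.Agent.LocEll
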