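import Fermat.Agent.Cheb.Exist
import Fermat.Agent.DefRing.Mat
import Fermat.Agent.NewPoint.Final

/-!
# Quadratic relations for all Galois elements, from Frobenius elements
-/

set_option autoImplicit false
set_option linter.unusedSectionVars false

noncomputable section

namespace Fermat.Agent.LocEll

open IsLocalRing Fermat.Agent.DefRing Matrix

variable {O : Type*} [CommRing O] [IsLocalRing O]

theorem fix_of_agree {L : IntermediateField ℚ (AlgebraicClosure ℚ)} {σ τ : GQ}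
    (h : ∀ x ∈ L, σ x = τ x) : ∀ x ∈ L, (σ⁻¹ * τ) x = x := by
  intro x hx
  rw [AlgEquiv.mul_apply, ← h x hx]
  exact σ.symm_apply_apply x

/-- a matrix representation is locally constant modulo powers of the maximal ideal -/
theorem map_eq_of_agree {k : Type*} [Fintype k] [DecidableEq k]
    (P : GQ →* Matrix k k O) (n : ℕ) {L : IntermediateField ℚ (AlgebraicClosure ℚ)}
    (hL : ∀ σ : GQ, (∀ x ∈ L, σ x = x) → ∀ i j, (P σ - 1) i j ∈ maximalIdeal O ^ n)
    {σ τ : GQ} (h : ∀ x ∈ L, σ x = τ x) :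
    (P σ).map (Ideal.Quotient.mk (maximalIdeal O ^ n)) =
      (P τ).map (Ideal.Quotient.mk (maximalIdeal O ^ n)) := by
  have h1 := hL _ (fix_of_agree h)
  have h2 : (P (σ⁻¹ * τ)).map (Ideal.Quotient.mk (maximalIdeal O ^ n)) = 1 := by
    ext i j
    rw [Matrix.map_apply]
    have h3 := Ideal.Quotient.eq_zero_iff_mem.mpr (h1 i j)
    rw [Matrix.sub_apply, map_sub, sub_eq_zero] at h3
    rw [h3, Matrix.one_apply, Matrix.one_apply]
    split_ifs <;> simp
  have h4 : P τ = P σ * P (σ⁻¹ * τ) := by rw [← map_mul, mul_inv_cancel_left]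
  rw [h4, Matrix.map_mul, h2, mul_one]

theorem map_mulVec' {R S : Type*} [CommRing R] [CommRing S] (f : R →+* S) {k : Type*} [Fintype k]
    (M : Matrix k k R) (x : k → R) : f ∘ (M *ᵥ x) = (M.map f) *ᵥ (f ∘ x) := by
  ext i
  simp [Matrix.mulVec, dotProduct]

/-- **Density.** -/
theorem rel_of_frob [IsHausdorff (maximalIdeal O) O] {k : Type*} [Fintype k] [DecidableEq k]
    (P : GQ →* Matrix k k O)
    (hP : ∀ n : ℕ, ∃ L : IntermediateField ℚ (AlgebraicClosure ℚ), FiniteDimensional ℚ L ∧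
      ∀ σ : GQ, (∀ x ∈ L, σ x = x) → ∀ i j, (P σ - 1) i j ∈ maximalIdeal O ^ n)
    (t : GQ → O)
    (ht : ∀ n : ℕ, ∃ L : IntermediateField ℚ (AlgebraicClosure ℚ), FiniteDimensional ℚ L ∧
      ∀ σ τ : GQ, (∀ x ∈ L, σ x = τ x) → t σ - t τ ∈ maximalIdeal O ^ n)
    (c : GQ → O)
    (hc : ∀ n : ℕ, ∃ L : IntermediateField ℚ (AlgebraicClosure ℚ), FiniteDimensional ℚ L ∧
      ∀ σ τ : GQ, (∀ x ∈ L, σ x = τ x) → c σ - c τ ∈ maximalIdeal O ^ n)
    (S : Finset ℕ) (x : k → O)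
    (h : ∀ l : ℕ, l.Prime → l ∉ S → ∀ A : ValuationSubring (AlgebraicClosure ℚ),
      A.LiesOverPrime l → ∀ τ : GQ, A.IsFrobeniusAt τ l →
        P τ *ᵥ (P τ *ᵥ x) - t τ • (P τ *ᵥ x) + c τ • x = 0) (σ : GQ) :
    P σ *ᵥ (P σ *ᵥ x) - t σ • (P σ *ᵥ x) + c σ • x = 0 := by
  ext i
  refine IsHausdorff.haus (I := maximalIdeal O) inferInstance _ (fun n => ?_)
  rw [SModEq.zero, smul_eq_mul, Ideal.mul_top, ← Ideal.Quotient.eq_zero_iff_mem]
  obtain ⟨L₁, hL₁, h₁⟩ := hP n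
  obtain ⟨L₂, hL₂, h₂⟩ := ht n
  obtain ⟨L₃, hL₃, h₃⟩ := hc n
  have hfin : FiniteDimensional ℚ (L₁ ⊔ L₂ ⊔ L₃ : IntermediateField ℚ (AlgebraicClosure ℚ)) :=
    inferInstance
  obtain ⟨l, hl, hlS, -, A, hA, τ, hτ, hστ⟩ := Cheb.exists_frobenius_eq _ hfin σ S
  have e1 := map_eq_of_agree P n h₁ (σ := τ) (τ := σ)
    (fun x hx => hστ x ((le_sup_left.trans le_sup_left : L₁ ≤ L₁ ⊔ L₂ ⊔ L₃) hx))
  have e2 := Ideal.Quotient.eq.mpr (h₂ τ σ
    (fun x hx => hστ x ((le_sup_right.trans le_sup_left : L₂ ≤ L₁ ⊔ L₂ ⊔ L₃) hx)))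
  have e3 := Ideal.Quotient.eq.mpr (h₃ τ σ
    (fun x hx => hστ x ((le_sup_right : L₃ ≤ L₁ ⊔ L₂ ⊔ L₃) hx)))
  set q := Ideal.Quotient.mk (maximalIdeal O ^ n) with hq
  have key : ∀ ρ : GQ, q ∘ (P ρ *ᵥ (P ρ *ᵥ x) - t ρ • (P ρ *ᵥ x) + c ρ • x) =
      (P ρ).map q *ᵥ ((P ρ).map q *ᵥ (q ∘ x)) - q (t ρ) • ((P ρ).map q *ᵥ (q ∘ x)) +
        q (c ρ) • (q ∘ x) := by
    intro ρ
    rw [← map_mulVec', ← map_mulVec']
    ext j
    simp
  have h4 := h l hl hlS A hA τ hτ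
  have h5 := key τ
  rw [h4, e1, e2, e3, ← key σ] at h5
  have h6 := congrFun h5 i
  rw [Function.comp_apply, Function.comp_apply, Pi.zero_apply, map_zero] at h6
  exact h6.symm

/-- the trace of a continuous representation -/
theorem trace_cont {O : Type} [CommRing O] [IsLocalRing O] {r : GQ →* M2 O} (hr : MatCont O r)
    (n : ℕ) : ∃ L : IntermediateField ℚ (AlgebraicClosure ℚ), FiniteDimensional ℚ L ∧
      ∀ σ τ : GQ, (∀ x ∈ L, σ x = τ x) → (r σ).trace - (r τ).trace ∈ maximalIdeal O ^ n := by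
  obtain ⟨L, hL, h⟩ := hr n
  refine ⟨L, hL, fun σ τ hστ => ?_⟩
  have e1 := map_eq_of_agree r n h hστ
  rw [← Ideal.Quotient.eq]
  have h2 : ∀ ρ : GQ, Ideal.Quotient.mk (maximalIdeal O ^ n) (r ρ).trace =
      ((r ρ).map (Ideal.Quotient.mk (maximalIdeal O ^ n))).trace := by
    intro ρ
    rw [Matrix.trace_fin_two, Matrix.trace_fin_two, map_add]
    rfl
  rw [h2, h2, e1]

theorem char_cont (c : GQ →* O)
    (hc : ∀ n : ℕ, ∃ L : IntermediateField ℚ (AlgebraicClosure ℚ), FiniteDimensional ℚ L ∧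
      ∀ σ : GQ, (∀ x ∈ L, σ x = x) → c σ - 1 ∈ maximalIdeal O ^ n) (n : ℕ) :
    ∃ L : IntermediateField ℚ (AlgebraicClosure ℚ), FiniteDimensional ℚ L ∧
      ∀ σ τ : GQ, (∀ x ∈ L, σ x = τ x) → c σ - c τ ∈ maximalIdeal O ^ n := by
  obtain ⟨L, hL, h⟩ := hc n
  refine ⟨L, hL, fun σ τ hστ => ?_⟩
  have h1 := h _ (fix_of_agree (fun x hx => (hστ x hx).symm))
  have h2 : c σ - c τ = c τ * (c (τ⁻¹ * σ) - 1) := by
    rw [mul_sub, ← map_mul, mul_inv_cancel_left, mul_one]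
  rw [h2]
  exact Ideal.mul_mem_left _ _ h1

/-- descent of vectors -/
theorem descend {O E : Type*} [CommRing O] [IsDomain O] [Field E] (ι : O →+* E)
    (hι : Function.Injective ι) {k : Type*} [Finite k] (x : k → E) (hx : x ≠ 0) :
    ∃ y : k → O, y ≠ 0 ∧ ∀ [Fintype k] (v : k → O), ∑ i, ι (v i) * x i = 0 →
      ∑ i, v i * y i = 0 := by
  classical
  let K := FractionRing O
  let φ : K →+* E := IsFractionRing.lift (A := O) (K := K) (g := ι) hι
  have hφ : ∀ a : O, φ (algebraMap O K a) = ι a := fun a => IsFractionRing.lift_algebraMap hι a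
  let _ : Algebra K E := φ.toAlgebra
  obtain ⟨j, hj⟩ : ∃ j, x j ≠ 0 := by
    by_contra hcon
    push Not at hcon
    exact hx (funext hcon)
  obtain ⟨f, hf⟩ : ∃ f : Module.Dual K E, f (x j) ≠ 0 := by
    by_contra hcon
    push Not at hcon
    exact hj ((Module.forall_dual_apply_eq_zero_iff K (x j)).mp hcon)
  obtain ⟨d, hd⟩ := IsLocalization.exist_integer_multiples_of_finite (nonZeroDivisors O)
    (fun i => f (x i))
  choose y hy using hd
  have hinj : Function.Injective (algebraMap O K) := IsFractionRing.injective O K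
  have hd0 : algebraMap O K d ≠ 0 := by
    intro h
    exact nonZeroDivisors.coe_ne_zero d (hinj (by rw [h, map_zero]))
  refine ⟨y, ?_, ?_⟩
  · rintro rfl
    have h1 := hy j
    rw [Pi.zero_apply, map_zero] at h1
    rw [Algebra.smul_def] at h1
    exact mul_ne_zero hd0 hf h1.symm
  · intro _ v hv
    apply hinj
    rw [map_sum, map_zero]
    have h1 : ∀ i, algebraMap O K (v i * y i) = algebraMap O K d * f (ι (v i) * x i) := by
      intro i
      have h2 : ι (v i) * x i = algebraMap O K (v i) • x i := by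
        rw [← hφ, Algebra.smul_def]; rfl
      have h3 : (d : O) • f (x i) = algebraMap O K d * f (x i) := Algebra.smul_def _ _
      rw [h2, map_smul, map_mul, hy i, h3, smul_eq_mul]
      ring
    rw [Finset.sum_congr rfl (fun i _ => h1 i), ← Finset.mul_sum, ← map_sum, hv, map_zero,
      mul_zero]

end Fermat.Agent.LocEll
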