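import Fermat.Agent.LocEll.Density
import Fermat.Agent.LocRing.Uni

/-!
# Eigenvectors in Tate modules and the associated Galois representations
-/

set_option autoImplicit false
set_option linter.unusedSectionVars false

noncomputable section

namespace Fermat.Agent.LocEll

open IsLocalRing Fermat.Agent.DefRing Matrix Fermat.Agent.HGModule Fermat.Agent.QuadRep
  Fermat.Agent.NewPoint Polynomial

variable {p : ℕ} [Fact p.Prime] {N : ℕ} [NeZero N] {S : Finset ℕ}
  (D : HeckeGaloisModule p N (↑S : Set ℕ))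
  {O : Type} [CommRing O] [IsDomain O] [IsDiscreteValuationRing O]
  [IsAdicComplete (maximalIdeal O) O] [CharZero O] (hp : (p : O) ∈ maximalIdeal O)

/-- the Galois action on `O ⊗ T` in coordinates -/
def PO : GQ →* Matrix (Fin (rk D)) (Fin (rk D)) O :=
  ((padicHom p O hp).mapMatrix : Matrix (Fin (rk D)) (Fin (rk D)) ℤ_[p] →+*
    Matrix (Fin (rk D)) (Fin (rk D)) O).toMonoidHom.comp (P D)

theorem PO_apply (σ : GQ) : PO D hp σ = (P D σ).map (padicHom p O hp) := rfl

theorem PO_cont (n : ℕ) : ∃ L : IntermediateField ℚ (AlgebraicClosure ℚ), FiniteDimensional ℚ L ∧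
    ∀ σ : GQ, (∀ x ∈ L, σ x = x) → ∀ i j, (PO D hp σ - 1) i j ∈ maximalIdeal O ^ n := by
  obtain ⟨L, hL, h⟩ := P_continuous D n
  refine ⟨L, hL, fun σ hσ i j => ?_⟩
  have hloc : IsLocalHom (padicHom p O hp) := isLocalHom_of_natCast_mem hp _
  have h1 : (PO D hp σ - 1) i j = padicHom p O hp ((P D σ - 1) i j) := by
    rw [PO_apply, Matrix.sub_apply, Matrix.sub_apply, Matrix.map_apply, map_sub, Matrix.one_apply,
      Matrix.one_apply]
    split_ifs <;> simp
  rw [h1]
  have h2 := Ideal.mem_map_of_mem (padicHom p O hp) (h σ hσ i j)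
  rw [Ideal.map_pow] at h2
  refine Ideal.pow_right_mono ?_ n h2
  rw [Ideal.map_le_iff_le_comap]
  intro y hy
  exact map_nonunit (padicHom p O hp) y hy

variable {D}

/-- the eigenvector condition -/
def IsEig (D : HeckeGaloisModule p N (↑S : Set ℕ)) (r : GQ →* M2 O) (S' : Finset ℕ)
    (x : Fin (rk D) → O) : Prop :=
  ∀ (l : ℕ) (hl : l.Prime) (hlN : ¬ l ∣ N) (hlS : l ∉ (↑S : Set ℕ)), l ∉ S' →
    ∀ A : ValuationSubring (AlgebraicClosure ℚ), A.LiesOverPrime l → ∀ τ : GQ,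
      A.IsFrobeniusAt τ l →
        ((Q D (CuspForm.heckeAlgebra.T hl hlN hlS)).map (Int.castRingHom O)) *ᵥ x =
          (r τ).trace • x

/-- the quadratic relation for all Galois elements -/
theorem eig_rel {r : GQ →* M2 O} (hr : MatCont O r) {S' : Finset ℕ} {x : Fin (rk D) → O}
    (hx : IsEig D r S' x) (σ : GQ) :
    PO D hp σ *ᵥ (PO D hp σ *ᵥ x) - (r σ).trace • (PO D hp σ *ᵥ x) + cyc p O hp σ • x = 0 := by
  classical
  refine rel_of_frob (PO D hp) (PO_cont D hp) (fun σ => (r σ).trace) (trace_cont hr)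
    (fun σ => cyc p O hp σ) (char_cont (cyc p O hp) (exists_finite_cyc hp))
    (S ∪ S' ∪ {p} ∪ N.primeFactors) x ?_ σ
  intro l hl hlS A hA τ hτ
  rw [Finset.mem_union, Finset.mem_union, Finset.mem_union, Finset.mem_singleton, not_or, not_or,
    not_or] at hlS
  obtain ⟨⟨⟨hlS, hlS'⟩, hlp⟩, hlN⟩ := hlS
  have hlN' : ¬ l ∣ N := fun h => hlN (Nat.mem_primeFactors.mpr ⟨hl, h, NeZero.ne N⟩)
  have hlS2 : l ∉ (↑S : Set ℕ) := fun h => hlS (Finset.mem_coe.mp h)
  have h1 := P_frobenius D l hl hlN' hlS2 hlp A hA τ hτ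
  have h2 := hx l hl hlN' hlS2 hlS' A hA τ hτ
  have h3 := Q_commute D (CuspForm.heckeAlgebra.T hl hlN' hlS2) τ
  set t := CuspForm.heckeAlgebra.T (k := 2) hl hlN' hlS2 with ht
  have hQ : (Q D t).map (Int.castRingHom O) =
      ((Q D t).map (algebraMap ℤ ℤ_[p])).map (padicHom p O hp) := by
    ext i j
    simp
  have h4 := congrArg (fun M : Matrix (Fin (rk D)) (Fin (rk D)) ℤ_[p] =>
      (padicHom p O hp).mapMatrix M *ᵥ x) h1
  have h5 : (padicHom p O hp).mapMatrix (P D τ) = PO D hp τ := rfl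
  have h6 : (padicHom p O hp).mapMatrix ((Q D t).map (algebraMap ℤ ℤ_[p])) =
      (Q D t).map (Int.castRingHom O) := hQ.symm
  have h7 : (padicHom p O hp).mapMatrix ((l : ℤ_[p]) •
      (1 : Matrix (Fin (rk D)) (Fin (rk D)) ℤ_[p])) = (l : O) • 1 := by
    ext i j
    rw [RingHom.mapMatrix_apply, Matrix.map_apply, Matrix.smul_apply, Matrix.smul_apply,
      smul_eq_mul, smul_eq_mul, map_mul, map_natCast, Matrix.one_apply, Matrix.one_apply]
    split_ifs <;> simp
  simp only [map_add, map_sub, map_mul, h5, h6, h7, map_zero, Matrix.zero_mulVec] at h4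
  have h8 := congrArg (padicHom p O hp).mapMatrix h3
  simp only [map_mul, h5, h6] at h8
  rw [h8, Matrix.add_mulVec, Matrix.sub_mulVec, ← Matrix.mulVec_mulVec, ← Matrix.mulVec_mulVec,
    h2, Matrix.mulVec_smul, Matrix.smul_mulVec, Matrix.one_mulVec,
    ← cyc_frobenius hp hl hlp hA hτ] at h4
  exact h4

theorem PO_ne_zero (σ : GQ) {x : Fin (rk D) → O} (hx : x ≠ 0) : PO D hp σ *ᵥ x ≠ 0 := by
  intro h
  apply hx
  have h1 : PO D hp σ⁻¹ *ᵥ (PO D hp σ *ᵥ x) = x := by
    rw [Matrix.mulVec_mulVec, ← map_mul, inv_mul_cancel, map_one, Matrix.one_mulVec]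
  rw [← h1, h, Matrix.mulVec_zero]

/-- elements acting unipotently of level two -/
theorem trace_eq_two {r : GQ →* M2 O} (hr : MatCont O r) {S' : Finset ℕ} {x : Fin (rk D) → O}
    (hx0 : x ≠ 0) (hx : IsEig D r S' x) {σ : GQ} (hσ : (P D σ - 1) * (P D σ - 1) = 0)
    (hc : cyc p O hp σ = 1) : (r σ).trace = 2 := by
  have h1 := eig_rel hp hr hx σ
  have h2 : (PO D hp σ - 1) * (PO D hp σ - 1) = 0 := by
    have := congrArg (padicHom p O hp).mapMatrix hσ
    rw [map_mul, map_sub, map_one, map_zero] at this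
    exact this
  have h3 := congrArg (fun M => M *ᵥ x) h2
  have h4 : (PO D hp σ - 1) * (PO D hp σ - 1) =
      PO D hp σ * PO D hp σ - PO D hp σ - PO D hp σ + 1 := by noncomm_ring
  simp only [h4, Matrix.add_mulVec, Matrix.sub_mulVec, ← Matrix.mulVec_mulVec, Matrix.one_mulVec,
    Matrix.zero_mulVec] at h3
  rw [hc, one_smul] at h1
  have h5 : ((r σ).trace - 2) • (PO D hp σ *ᵥ x) = 0 := by
    have : ((r σ).trace - 2) • (PO D hp σ *ᵥ x) =
        (PO D hp σ *ᵥ (PO D hp σ *ᵥ x) - PO D hp σ *ᵥ x - PO D hp σ *ᵥ x + x) -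
        (PO D hp σ *ᵥ (PO D hp σ *ᵥ x) - (r σ).trace • (PO D hp σ *ᵥ x) + x) := by
      rw [sub_smul, two_smul]
      abel
    rw [this, h3, h1, sub_zero]
  rcases smul_eq_zero.mp h5 with h6 | h6
  · exact sub_eq_zero.mp h6
  · exact absurd h6 (PO_ne_zero hp σ hx0)

theorem det_eq_one_of_trace {R : Type*} [CommRing R] [IsDomain R] [CharZero R]
    {M : Matrix (Fin 2) (Fin 2) R} (h1 : M.trace = 2) (h2 : (M * M).trace = 2) : M.det = 1 := by
  have h3 : (M * M).trace = M.trace ^ 2 - 2 * M.det := by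
    rw [Matrix.trace_fin_two, Matrix.trace_fin_two, Matrix.det_fin_two, Matrix.mul_apply,
      Matrix.mul_apply, Fin.sum_univ_two, Fin.sum_univ_two]
    ring
  rw [h1, h2] at h3
  have h4 : (2 : R) * (M.det - 1) = 0 := by linear_combination h3
  rcases mul_eq_zero.mp h4 with h5 | h5
  · exact absurd h5 two_ne_zero
  · exact sub_eq_zero.mp h5

theorem sub_one_sq {R : Type*} [CommRing R] {M : Matrix (Fin 2) (Fin 2) R} (h1 : M.trace = 2)
    (h2 : M.det = 1) : (M - 1).trace = 0 ∧ (M - 1).det = 0 ∧ (M - 1) * (M - 1) = 0 := by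
  have e1 : (M - 1).trace = 0 := by
    rw [Matrix.trace_sub, h1, Matrix.trace_one, Fintype.card_fin]
    norm_num
  have e2 : (M - 1).det = 0 := by
    rw [Matrix.trace_fin_two] at h1
    rw [Matrix.det_fin_two] at h2
    rw [Matrix.det_fin_two, Matrix.sub_apply, Matrix.sub_apply, Matrix.sub_apply,
      Matrix.sub_apply, Matrix.one_apply_eq, Matrix.one_apply_eq,
      Matrix.one_apply_ne (by decide : (0 : Fin 2) ≠ 1),
      Matrix.one_apply_ne (by decide : (1 : Fin 2) ≠ 0)]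
    linear_combination h2 - h1
  exact ⟨e1, e2, LocRing.sq_eq_zero_of e1 e2⟩

/-- **Unipotence**: if a subgroup acts on the Tate module through unipotents of level two, the
same is true for the representation attached to an eigenvector. -/
theorem unip_of_eig {r : GQ →* M2 O} (hr : MatCont O r) {S' : Finset ℕ} {x : Fin (rk D) → O}
    (hx0 : x ≠ 0) (hx : IsEig D r S' x) {I : Subgroup GQ}
    (hI : ∀ σ ∈ I, (P D σ - 1) * (P D σ - 1) = 0) (hc : ∀ σ ∈ I, cyc p O hp σ = 1) {σ : GQ}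
    (hσ : σ ∈ I) : (r σ - 1).trace = 0 ∧ (r σ - 1).det = 0 ∧ (r σ - 1) * (r σ - 1) = 0 := by
  have h1 := trace_eq_two hp hr hx0 hx (hI σ hσ) (hc σ hσ)
  have h2 := trace_eq_two hp hr hx0 hx (hI _ (I.mul_mem hσ hσ)) (hc _ (I.mul_mem hσ hσ))
  rw [map_mul] at h2
  exact sub_one_sq h1 (det_eq_one_of_trace h1 h2)

/-- **Frobenius**: the relation `(u² - q²)(u² - 1) x = 0` gives `tr² = (q+1)²`. -/
theorem trace_sq_of_newPoly {r : GQ →* M2 O} (hr : MatCont O r) {S' : Finset ℕ}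
    {x : Fin (rk D) → O} (hx0 : x ≠ 0) (hx : IsEig D r S' x) {σ : GQ} {q : ℕ}
    (hc : cyc p O hp σ = q)
    (hrel : ((PO D hp σ * PO D hp σ - ((q : O) ^ 2) • 1) * (PO D hp σ * PO D hp σ - 1)) *ᵥ x = 0) :
    (r σ).trace ^ 2 = ((q : O) + 1) ^ 2 := by
  have h1 := eig_rel hp hr hx σ
  set u := PO D hp σ with hu
  set t := (r σ).trace with ht
  rw [hc] at h1
  have h2 : (u * u - t • u + (q : O) • 1) *ᵥ x = 0 := by
    rw [Matrix.add_mulVec, Matrix.sub_mulVec, ← Matrix.mulVec_mulVec, Matrix.smul_mulVec,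
      Matrix.smul_mulVec, Matrix.one_mulVec]
    exact h1
  have h3 : (u * u - ((q : O) ^ 2) • 1) * (u * u - 1) =
      (u * u + t • u + (q : O) • 1) * (u * u - t • u + (q : O) • 1) +
      (t ^ 2 - ((q : O) + 1) ^ 2) • (u * u) := by
    simp only [mul_add, add_mul, mul_sub, sub_mul, smul_mul_assoc, mul_smul_comm, mul_one, one_mul,
      smul_smul, ← mul_assoc]
    module
  rw [h3, Matrix.add_mulVec, ← Matrix.mulVec_mulVec, h2, Matrix.mulVec_zero, zero_add,
    Matrix.smul_mulVec] at hrel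
  rcases smul_eq_zero.mp hrel with h4 | h4
  · exact sub_eq_zero.mp h4
  · rw [← Matrix.mulVec_mulVec] at h4
    exact absurd h4 (PO_ne_zero hp σ (PO_ne_zero hp σ hx0))

end Fermat.Agent.LocEll
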