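import Fermat.Agent.LocEll.Coord

/-!
# Local properties at primes exactly dividing the level: [LOC-uni], [LOC-new]
-/

set_option autoImplicit false
set_option linter.unusedSectionVars false

noncomputable section

namespace Fermat.Agent.LocEll

open IsLocalRing Fermat.Agent.DefRing Matrix Fermat.Agent.HGModule Fermat.Agent.QuadRep
  Fermat.Agent.NewPoint Fermat.Agent.Tate Fermat.Agent.HeckeHom
open ModularCurve ModularCurve.Period CongruenceSubgroup
open scoped TensorProduct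

section NewAt

variable {p : ℕ} [Fact p.Prime] {M : ℕ} [NeZero M] {S : Finset ℕ}
  {D : HeckeGaloisModule p M (↑S : Set ℕ)} {q : ℕ}

/-- the Frobenius relation on vectors killed by both degeneracy maps -/
theorem newAt_rel (E : NewAt p M S D q) {A : ValuationSubring (AlgebraicClosure ℚ)}
    (hA : A.LiesOverPrime q) {σ : GQ} (hσ : A.IsFrobeniusAt σ q) (y : Fin (rk D) → ℤ_[p])
    (h1 : matA E *ᵥ y = 0) (h2 : matB E *ᵥ y = 0) :
    ((P D σ * P D σ - ((q : ℤ_[p]) ^ 2) • 1) * (P D σ * P D σ - 1)) *ᵥ y = 0 := by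
  obtain ⟨z, hz⟩ : ∃ z, ((basp D).repr z : Fin (rk D) → ℤ_[p]) = y := by
    refine ⟨(basp D).equivFun.symm y, ?_⟩
    rw [← Module.Basis.equivFun_apply, LinearEquiv.apply_symm_apply]
  have key : ∀ w, P D σ *ᵥ ((basp D).repr w : Fin (rk D) → ℤ_[p]) = (basp D).repr (D.ρ σ w) :=
    fun w => LinearMap.toMatrix_mulVec_repr (basp D) (basp D) (D.ρ σ) w
  have e1 : E.a z = 0 := by
    have h3 := LinearMap.toMatrix_mulVec_repr (basp D) (basp E.D') E.a z
    rw [hz] at h3
    apply (basp E.D').repr.injective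
    ext j
    rw [← congrFun h3 j, map_zero]
    exact congrFun h1 j
  have e2 : E.b z = 0 := by
    have h3 := LinearMap.toMatrix_mulVec_repr (basp D) (basp E.D') E.b z
    rw [hz] at h3
    apply (basp E.D').repr.injective
    ext j
    rw [← congrFun h3 j, map_zero]
    exact congrFun h2 j
  have e3 := E.frob A hA σ hσ z e1 e2
  rw [← Matrix.mulVec_mulVec, Matrix.sub_mulVec, Matrix.sub_mulVec, ← Matrix.mulVec_mulVec,
    ← Matrix.mulVec_mulVec, Matrix.smul_mulVec, Matrix.one_mulVec, Matrix.one_mulVec, ← hz]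
  rw [key, key]
  have h5 : (((basp D).repr (D.ρ σ (D.ρ σ z)) : Fin (rk D) → ℤ_[p]) -
      ((basp D).repr z : Fin (rk D) → ℤ_[p])) =
      ((basp D).repr (D.ρ σ (D.ρ σ z) - z) : Fin (rk D) → ℤ_[p]) := by
    rw [map_sub]
    rfl
  rw [h5, key, key, e3, map_smul]
  exact sub_self _

/-- the relation with coefficients in a field -/
theorem newAt_rel_map (E : NewAt p M S D q) {A : ValuationSubring (AlgebraicClosure ℚ)}
    (hA : A.LiesOverPrime q) {σ : GQ} (hσ : A.IsFrobeniusAt σ q) {K : Type*} [Field K]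
    (f : ℤ_[p] →+* K) (hf : Function.Injective f) (y : Fin (rk D) → K)
    (h1 : (matA E).map f *ᵥ y = 0) (h2 : (matB E).map f *ᵥ y = 0) :
    (((P D σ * P D σ - ((q : ℤ_[p]) ^ 2) • 1) * (P D σ * P D σ - 1)).map f) *ᵥ y = 0 := by
  classical
  refine relation_baseChange f hf (Matrix.fromRows (matA E) (matB E)) _ ?_ y ?_
  · intro z hz
    rw [Matrix.fromRows_mulVec] at hz
    refine newAt_rel E hA hσ z ?_ ?_
    · ext j
      exact congrFun hz (Sum.inl j)
    · ext j
      exact congrFun hz (Sum.inr j)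
  · have h3 : (Matrix.fromRows (matA E) (matB E)).map f =
      Matrix.fromRows ((matA E).map f) ((matB E).map f) := by
      ext (j | j) k <;> rfl
    rw [h3, Matrix.fromRows_mulVec, h1, h2]
    ext (j | j) <;> rfl

end NewAt

/-- the degeneracy data at a prime exactly dividing the level -/
def newAtJ {p N q : ℕ} [Fact p.Prime] [NeZero N] [NeZero (N * q)] {S : Finset ℕ}
    (hMS : ∀ r : ℕ, r.Prime → r ∣ N * q → r ∈ (↑S : Set ℕ))
    (hNS : ∀ r : ℕ, r.Prime → r ∣ N → r ∈ (↑S : Set ℕ)) (hq : q.Prime) (hqp : q ≠ p)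
    (hqN : ¬ q ∣ N) :
    NewAt p (N * q) S (jI (N * q) p (↑S : Set ℕ) hMS).toModule q :=
  haveI : NeZero q := ⟨hq.ne_zero⟩
  newAt (jI (N * q) p (↑S : Set ℕ) hMS) (jI N p (↑S : Set ℕ) hNS) (Dvd.intro q rfl)
    (fun h => hq.one_lt.ne (Nat.eq_of_mul_eq_mul_left (Nat.pos_of_ne_zero (NeZero.ne N))
      (by rw [mul_one]; exact h : N * 1 = N * q))) q
    (Degen.pushPic (heckeAlphaBar (AlgebraicClosure ℚ) N q))
    (Degen.pushPic (heckeBetaBar (AlgebraicClosure ℚ) N q))
    (fun ℓ hℓ hM _ _ x _ => pushPic_alpha_heckeOperatorBar ℓ hℓ hM x)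
    (fun ℓ hℓ hM _ _ x _ => pushPic_beta_heckeOperatorBar ℓ hℓ hM x)
    (fun A hA σ hσ x hx h1 h2 =>
      frob_torsion (Fact.out : p.Prime) hq hqp hqN A hA σ hσ x hx h1 h2)

section Descend

variable {p : ℕ} [Fact p.Prime] {N : ℕ} [NeZero N] {S : Finset ℕ}
  (D : HeckeGaloisModule p N (↑S : Set ℕ))
  {O : Type} [CommRing O] [IsDomain O] [IsDiscreteValuationRing O]
  [IsAdicComplete (maximalIdeal O) O] [CharZero O]
  {E : Type*} [Field E] (ι : O →+* E) (hι : Function.Injective ι)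

include hι in
/-- an eigenvector with coefficients in a big field gives an eigenvector over `O` -/
theorem exists_isEig (r : GQ →* M2 O) (a : ℕ → E)
    (ha : ∀ l : ℕ, l.Prime → l ∉ S → ∀ A : ValuationSubring (AlgebraicClosure ℚ),
      A.LiesOverPrime l → ∀ τ : GQ, A.IsFrobeniusAt τ l → ι (r τ).trace = a l)
    (x : Fin (rk D) → E) (hx0 : x ≠ 0)
    (hx : ∀ (l : ℕ) (hl : l.Prime) (hlN : ¬ l ∣ N) (hlS : l ∉ (↑S : Set ℕ)),
      ((Q D (CuspForm.heckeAlgebra.T hl hlN hlS)).map (Int.castRingHom E)) *ᵥ x = a l • x)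
    {κ : Type*} (Z : Matrix κ (Fin (rk D)) O) (hZ : Z.map ι *ᵥ x = 0) :
    ∃ y : Fin (rk D) → O, y ≠ 0 ∧ IsEig D r ∅ y ∧ Z *ᵥ y = 0 := by
  obtain ⟨y, hy0, hy⟩ := descend ι hι x hx0
  refine ⟨y, hy0, ?_, ?_⟩
  · intro l hl hlN hlS _ A hA τ hτ
    have h1 := hx l hl hlN hlS
    rw [← ha l hl (fun h => hlS (Finset.mem_coe.mpr h)) A hA τ hτ] at h1
    ext i
    have h2 := congrFun h1 i
    have h3 := hy (fun j => ((Q D (CuspForm.heckeAlgebra.T hl hlN hlS)) i j : O) -
      (if i = j then (r τ).trace else 0)) (by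
        simp only [map_sub, sub_mul, Finset.sum_sub_distrib, map_intCast]
        rw [sub_eq_zero]
        simp only [Matrix.mulVec, dotProduct, Matrix.map_apply, Pi.smul_apply, smul_eq_mul] at h2
        refine h2.trans ?_
        rw [Finset.sum_eq_single i]
        · rw [if_pos rfl]
        · intro j _ hj
          rw [if_neg (Ne.symm hj), map_zero, zero_mul]
        · intro h
          exact absurd (Finset.mem_univ i) h)
    simp only [sub_mul, Finset.sum_sub_distrib] at h3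
    rw [sub_eq_zero] at h3
    simp only [Matrix.mulVec, dotProduct, Matrix.map_apply, Pi.smul_apply, smul_eq_mul]
    refine h3.trans ?_
    rw [Finset.sum_eq_single i]
    · rw [if_pos rfl]
    · intro j _ hj
      rw [if_neg (Ne.symm hj), zero_mul]
    · intro h
      exact absurd (Finset.mem_univ i) h
  · ext i
    exact hy (fun j => Z i j) (congrFun hZ i)

end Descend

/-- Hecke eigenspaces in parabolic homomorphisms -/
def VE (E : Type*) [Field E] (n m : ℕ) (a : ℕ → E) :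
    Submodule E (parabolicHoms E (Gamma0 n) E) where
  carrier := {φ | ∀ (s : ℕ) (hs : s.Prime) (hsn : ¬ s ∣ n), ¬ s ∣ m →
    parHecke E E hs hsn φ = a s • φ}
  add_mem' := by
    intro φ ψ hφ hψ s hs hsn hsm
    rw [map_add, hφ s hs hsn hsm, hψ s hs hsn hsm, smul_add]
  zero_mem' := by
    intro s hs hsn hsm
    rw [map_zero, smul_zero]
  smul_mem' := by
    intro c φ hφ s hs hsn hsm
    rw [map_smul, hφ s hs hsn hsm, smul_comm]

theorem mem_VE {E : Type*} [Field E] {n m : ℕ} {a : ℕ → E} {φ : parabolicHoms E (Gamma0 n) E} :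
    φ ∈ VE E n m a ↔ ∀ (s : ℕ) (hs : s.Prime) (hsn : ¬ s ∣ n), ¬ s ∣ m →
      heckeHom hs hsn E (φ : Additive (Gamma0 n) →+ E) = a s • (φ : Additive (Gamma0 n) →+ E) :=
  ⟨fun h s hs hsn hsm => congrArg Subtype.val (h s hs hsn hsm),
    fun h s hs hsn hsm => Subtype.ext (h s hs hsn hsm)⟩

theorem coord_mem_VE {p : ℕ} [Fact p.Prime] {N : ℕ} [NeZero N] {S : Finset ℕ}
    (I : TateInput p N (↑S : Set ℕ)) {E : Type*} [Field E] [CharZero E] {m : ℕ} {a : ℕ → E}
    (hmS : ∀ s : ℕ, s.Prime → s ∣ m → s ∈ S) {φ : parabolicHoms E (Gamma0 N) E}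
    (hφ : φ ∈ VE E N m a) (l : ℕ) (hl : l.Prime) (hlN : ¬ l ∣ N) (hlS : l ∉ (↑S : Set ℕ)) :
    ((Q I.toModule (CuspForm.heckeAlgebra.T hl hlN hlS)).map (Int.castRingHom E)) *ᵥ
      coord I E φ = a l • coord I E φ := by
  have h1 := hφ l hl hlN (fun h => hlS (Finset.mem_coe.mpr (hmS l hl h)))
  rw [← coord_theta, theta_T I.hES I.hS E hl hlN hlS, h1, map_smul]

end Fermat.Agent.LocEll
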